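import Fermat.Agent.LT.T3.H263.SatDecomp
import Fermat.Agent.LT.T6.H176.InstLocal
import Fermat.Agent.LT.H11.LC

/-!
# Row LT, tower T3, station T3.18a, leaf AS.1 `SatakeLocC` (helper263), OFF-MAIN -- part 5

`satakeLocC263 K : AS.SatakeLocC K`, the frozen Prop of `LT/T3/H736/ASSpec.lean` (helper736,
sha256 a661c778): for every finite place `v` of the number field `K` and every symmetric finitely
supported `A : ℤ² → ℂ` there is a Satake pair `(f₀, A)` on `GL₂(K_v)`.

Parts 1-4 are abstract (`k` a field with a valuation in `ℤᵐ⁰`, residue data, compact integers);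
here `k = K_v`:

* `K_v` is a local field with `q = N(v)`        : `T6.H176.instLocalC176` (helper176),
* `𝒪_v` is compact                               : `H11.LC.isCompact_integers_h11` (helper11),
* Hermite forms, Hecke recursion                 : `T6.H305.*` (helper305).

All imported files of other seats are byte-identical copies.
-/

set_option autoImplicit false

open scoped Classical

open IsDedekindDomain NumberField MeasureTheory

noncomputable section

namespace Fermat.Agent.LT.T3.H263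

open Fermat.Agent.LT.T6 Fermat.Agent.LT.T6.H305 Fermat.Agent.LT.T3.AS

variable {K : Type} [Field K] [NumberField K] (v : HeightOneSpectrum (𝓞 K))

theorem isIntGL_iff263 (g : GL (Fin 2) (v.adicCompletion K)) : IsIntGL v g ↔ InK g := by
  constructor
  · intro h
    exact ⟨fun i j => (h i j).1, fun i j => (h i j).2⟩
  · intro h i j
    exact ⟨h.1 i j, h.2 i j⟩

theorem isRepSys_iff263 (f : GL (Fin 2) (v.adicCompletion K) → ℂ)
    (R : Finset (GL (Fin 2) (v.adicCompletion K))) : IsRepSys v f R ↔ IsRep263 f R := by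
  constructor
  · rintro ⟨h1, h2⟩
    refine ⟨fun h hh h' hh' hK => h1 h hh h' hh' ((isIntGL_iff263 v _).2 hK), fun g hg => ?_⟩
    obtain ⟨h, hh, hK⟩ := h2 g hg
    exact ⟨h, hh, (isIntGL_iff263 v _).1 hK⟩
  · rintro ⟨h1, h2⟩
    refine ⟨fun h hh h' hh' hK => h1 h hh h' hh' ((isIntGL_iff263 v _).1 hK), fun g hg => ?_⟩
    obtain ⟨h, hh, hK⟩ := h2 g hg
    exact ⟨h, hh, (isIntGL_iff263 v _).2 hK⟩

/-- The explicit Hecke coset system `{[[1, 0], [0, ϖ]]} ∪ {[[ϖ, d], [0, 1]] : d ∈ T}`. -/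
theorem isLocCosetSys263 (D : ResData (v.adicCompletion K))
    (hD : D.T.card = Ideal.absNorm v.asIdeal) :
    IsLocCosetSys v ((D.Idx 1).image (D.fam 0)) := by
  have hJ : ∀ x ∈ D.Idx 1, x ∈ Res.Jdx263 D 1 := by
    intro x hx
    obtain ⟨h1, h2, _⟩ := D.mem_Idx.1 hx
    exact (Res.mem_Jdx263 D).2 ⟨h1, h2⟩
  have hS : ∀ x ∈ D.Idx 1, InS263 1 0 (D.fam 0 x) := fun x hx => Res.inS_fam263 D 0 (hJ x hx)
  refine ⟨?_, ?_, ?_⟩
  · have hc : ((((D.Idx 1).image (D.fam 0)).card : ℕ) : ℂ) = ((D.T.card + 1 : ℕ) : ℂ) := by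
      rw [Finset.card_eq_sum_ones, Nat.cast_sum]
      have h1 : ∑ h ∈ (D.Idx 1).image (D.fam 0), ((1 : ℕ) : ℂ)
          = ∑ x ∈ D.Idx 1, (fun _ : GL (Fin 2) (v.adicCompletion K) => (1 : ℂ)) (1 * D.fam 0 x) := by
        rw [Nat.cast_one]
        exact D.sum_image_fam 0 1 (fun _ => (1 : ℂ))
      rw [h1, D.sum_Idx_fam_zero (fun _ => (1 : ℂ)) 1 1,
        D.Pprim_eq_Aall_of_le_one _ 1 le_rfl, D.Aall_one]
      simp
      ring
    have := Nat.cast_injective (R := ℂ) hc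
    rw [this, hD]
  · intro h hh
    obtain ⟨x, hx, rfl⟩ := Finset.mem_image.1 hh
    obtain ⟨h1, h2⟩ := hS x hx
    refine ⟨fun i j => ?_, ?_⟩
    · have := h1 i j
      rw [neg_zero, WithZero.exp_zero] at this
      exact this
    · rw [h2]
      simp
  · intro h hh h' hh' hne hint
    obtain ⟨x, hx, rfl⟩ := Finset.mem_image.1 hh
    obtain ⟨y, hy, rfl⟩ := Finset.mem_image.1 hh'
    apply hne
    have hK : InK ((D.fam 0 x)⁻¹ * D.fam 0 y) := by
      rw [inK_iff]
      refine ⟨fun i j => hint i j, ?_⟩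
      have e : D.fam 0 y = D.fam 0 x * ((D.fam 0 x)⁻¹ * D.fam 0 y) := by group
      have hdet : Valued.v ((D.fam 0 y : GL (Fin 2) (v.adicCompletion K)) :
            Matrix (Fin 2) (Fin 2) (v.adicCompletion K)).det
          = Valued.v ((D.fam 0 x * ((D.fam 0 x)⁻¹ * D.fam 0 y) :
            GL (Fin 2) (v.adicCompletion K)) :
              Matrix (Fin 2) (Fin 2) (v.adicCompletion K)).det := by
        rw [← e]
      rw [Units.val_mul, Matrix.det_mul, map_mul, (hS x hx).2, (hS y hy).2] at hdet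
      have hne0 : (WithZero.exp (-(((1 : ℕ) : ℤ) + 2 * 0)) : Γ₀) ≠ 0 := WithZero.exp_ne_zero
      have := mul_left_cancel₀ hne0 (hdet.symm.trans (mul_one _).symm)
      exact this
    rw [D.fam_inj 0 hx hy hK]

theorem isEig_of_locEigen263 (D : ResData (v.adicCompletion K))
    (hD : D.T.card = Ideal.absNorm v.asIdeal)
    {Φ₀ : GL (Fin 2) (v.adicCompletion K) → ℂ} {a b : ℂ} (h : IsLocEigen v Φ₀ a b) :
    IsEig263 D Φ₀ (sq263 D * a) b := by
  refine ⟨fun u g hu => h.right_inv u g ((isIntGL_iff263 v u).2 hu), fun g => ?_, fun g => ?_⟩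
  · refine h.scalar (D.sc 1) D.ϖ D.hϖ ?_ g
    rw [ResData.sc_val, zpow_one]
    ext i j
    fin_cases i <;> fin_cases j <;> simp
  · have h1 := h.hecke _ (isLocCosetSys263 v D hD) g
    rw [D.sum_image_fam 0 1 (fun h => Φ₀ (g * h)), D.sum_Idx_fam_zero,
      D.Pprim_eq_Aall_of_le_one Φ₀ 1 le_rfl, D.Aall_one] at h1
    rw [h1]
    unfold sq263
    rw [hD]

theorem isCompact_int263 : IsCompact {x : v.adicCompletion K | Valued.v x ≤ 1} :=
  Fermat.Agent.LT.H11.LC.isCompact_integers_h11 K v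

theorem isSatakePair_of263 (D : ResData (v.adicCompletion K))
    (hD : D.T.card = Ideal.absNorm v.asIdeal)
    {f : GL (Fin 2) (v.adicCompletion K) → ℂ} {A : ℤ × ℤ → ℂ}
    (h₁ : IsSatAlg263 D f A) (h₂ : HasN263 D f A) : IsSatakePair v f A := by
  refine ⟨?_, ?_, ?_, ?_⟩
  · intro κ κ' g hκ hκ'
    rw [h₁.rinv κ' (κ * g) ((isIntGL_iff263 v κ').1 hκ'), h₁.linv κ g ((isIntGL_iff263 v κ).1 hκ)]
  · obtain ⟨R, hR⟩ := h₁.rep
    exact ⟨R, (isRepSys_iff263 v f R).2 hR⟩
  · intro ν₀ hν₀ c₁ c₂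
    have h := (h₂ ν₀ hν₀ c₁ c₂).2
    rw [hD] at h
    exact h
  · intro Φ₀ a b z₁ z₂ hΦ hz₁ hz₂ hb R hR y
    have hΦ' := isEig_of_locEigen263 v D hD hΦ
    rw [← hz₁, ← hz₂] at hΦ'
    rw [← hz₂] at hb
    exact h₁.acts Φ₀ z₁ z₂ hb hΦ' R ((isRepSys_iff263 v f R).1 hR) y

variable (K)

/-- **AS.1 = registry T3.18a.1 `SatakeLocC`** (the frozen Prop of `LT/T3/H736/ASSpec.lean`). -/
theorem satakeLocC263 : SatakeLocC K := by
  intro v A hA
  obtain ⟨D, hD⟩ := exists_resData (Fermat.Agent.LT.T6.H176.instLocalC176 K v)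
  obtain ⟨f, hf₁, hf₂⟩ := (mem_satSub263 D A).1
    (mem_satSub_of_symfin263 D (isCompact_int263 v) A hA.1 hA.2)
  exact ⟨f, isSatakePair_of263 v D hD hf₁ hf₂⟩

end Fermat.Agent.LT.T3.H263

end
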