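import Fermat.Agent.LT.T6.H305.SatakeEigen

/-!
# Row LT, tower T3, station T3.18a, leaf AS.1 `SatakeLocC` (helper263), OFF-MAIN -- part 1

Abstract nonarchimedean local field `k` (frame of tower T6: `Valued k Γ₀`, residue data
`H305.ResData`).  The functions

    T_{n,m} = 1{h : all entries in ϖ^m 𝒪, ord (det h) = n + 2m}        (n ≥ 0, m ∈ ℤ)

are bi-invariant under `GL₂(𝒪)`, their support is the union of the cosets of the Hermite forms
`ϖ^m [[ϖ^i, r], [0, ϖ^j]]`, `i + j = n`, `r ∈ R i` (helper305 `hnf`, `um_inj`), and a right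
invariant eigenfunction `Φ` of `T = T_{1,0}` and `S = T_{0,1}` (eigenvalues `t`, `s`) satisfies
`∑_h T_{n,m}(h) Φ(y h) = s^m α_n(t, s) Φ(y)` over ANY system of representatives covering the
support (helper305 `Aall_eq`).  Finite linear combinations are treated with one common system.

Imports: byte-identical copies of `LT/T6/Spec.lean` (helper22, v3) and `LT/T6/H305/*.lean`
(helper305).  Mathlib only otherwise.
-/

set_option autoImplicit false

noncomputable section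

namespace Fermat.Agent.LT.T3.H263

open Fermat.Agent.LT.T6 Fermat.Agent.LT.T6.H305

variable {k : Type} [Field k] [Valued k Γ₀]

/-- The support of `T_{n,m}`: all entries in `ϖ^m 𝒪` and `ord (det h) = n + 2m`. -/
def InS263 (n : ℕ) (m : ℤ) (h : GL (Fin 2) k) : Prop :=
  (∀ i j, Valued.v ((h : Matrix (Fin 2) (Fin 2) k) i j) ≤ WithZero.exp (-m)) ∧
    Valued.v (h : Matrix (Fin 2) (Fin 2) k).det = WithZero.exp (-((n : ℤ) + 2 * m))

theorem inS_mul_right263 {n : ℕ} {m : ℤ} {h κ : GL (Fin 2) k} (hS : InS263 n m h)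
    (hκ : InK κ) : InS263 n m (h * κ) := by
  refine ⟨fun i j => ?_, ?_⟩
  · rw [Units.val_mul, Matrix.mul_apply]
    refine Valuation.map_sum_le _ (fun l _ => ?_)
    rw [map_mul]
    calc Valued.v ((h : Matrix (Fin 2) (Fin 2) k) i l)
          * Valued.v ((κ : Matrix (Fin 2) (Fin 2) k) l j)
        ≤ WithZero.exp (-m) * 1 := mul_le_mul' (hS.1 i l) (hκ.1 l j)
      _ = WithZero.exp (-m) := mul_one _
  · rw [val_det_mul h κ hκ]
    exact hS.2

theorem inS_mul_left263 {n : ℕ} {m : ℤ} {h κ : GL (Fin 2) k} (hS : InS263 n m h)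
    (hκ : InK κ) : InS263 n m (κ * h) := by
  refine ⟨fun i j => ?_, ?_⟩
  · rw [Units.val_mul, Matrix.mul_apply]
    refine Valuation.map_sum_le _ (fun l _ => ?_)
    rw [map_mul]
    calc Valued.v ((κ : Matrix (Fin 2) (Fin 2) k) i l)
          * Valued.v ((h : Matrix (Fin 2) (Fin 2) k) l j)
        ≤ 1 * WithZero.exp (-m) := mul_le_mul' (hκ.1 i l) (hS.1 l j)
      _ = WithZero.exp (-m) := one_mul _
  · rw [Units.val_mul, Matrix.det_mul, map_mul, ((inK_iff κ).1 hκ).2, one_mul]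
    exact hS.2

theorem inS_mul_right_iff263 {n : ℕ} {m : ℤ} {h κ : GL (Fin 2) k} (hκ : InK κ) :
    InS263 n m (h * κ) ↔ InS263 n m h := by
  constructor
  · intro hS
    have := inS_mul_right263 hS (inK_inv hκ)
    rwa [mul_inv_cancel_right] at this
  · intro hS
    exact inS_mul_right263 hS hκ

/-- If `h` and `g` lie in the same coset of `GL₂(𝒪)` then `InS263` agrees on them. -/
theorem inS_congr263 {n : ℕ} {m : ℤ} {h g : GL (Fin 2) k} (hK : InK (h⁻¹ * g)) :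
    InS263 n m g ↔ InS263 n m h := by
  have e : g = h * (h⁻¹ * g) := by group
  rw [e]
  exact inS_mul_right_iff263 hK

namespace Res

variable (D : ResData k)

theorem sc_mul_apply263 (b : ℤ) (g : GL (Fin 2) k) (i j : Fin 2) :
    ((D.sc b * g : GL (Fin 2) k) : Matrix (Fin 2) (Fin 2) k) i j
      = D.ϖ ^ b * (g : Matrix (Fin 2) (Fin 2) k) i j := by
  rw [Units.val_mul, ResData.sc_val, Matrix.mul_apply, Fin.sum_univ_two]
  fin_cases i <;> simp

theorem det_sc_mul263 (b : ℤ) (g : GL (Fin 2) k) :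
    ((D.sc b * g : GL (Fin 2) k) : Matrix (Fin 2) (Fin 2) k).det
      = D.ϖ ^ b * D.ϖ ^ b * (g : Matrix (Fin 2) (Fin 2) k).det := by
  rw [Units.val_mul, Matrix.det_mul, ResData.sc_val, Matrix.det_fin_two_of]
  ring

theorem inS_sc_mul263 {n : ℕ} {m : ℤ} (b : ℤ) {g : GL (Fin 2) k} (hS : InS263 n m g) :
    InS263 n (m + b) (D.sc b * g) := by
  refine ⟨fun i j => ?_, ?_⟩
  · rw [sc_mul_apply263, map_mul, D.val_zpow]
    have e : (WithZero.exp (-(m + b)) : Γ₀) = WithZero.exp (-b) * WithZero.exp (-m) := by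
      rw [← WithZero.exp_add]
      congr 1
      ring
    rw [e]
    exact mul_le_mul' le_rfl (hS.1 i j)
  · rw [det_sc_mul263, map_mul, map_mul, D.val_zpow, hS.2, ← WithZero.exp_add,
      ← WithZero.exp_add]
    congr 1
    ring

theorem inS_um263 {i j : ℕ} {r : k} (hr : r ∈ D.R i) : InS263 (i + j) 0 (D.um i j r) := by
  refine ⟨fun a b => ?_, ?_⟩
  · rw [neg_zero, WithZero.exp_zero]
    rw [ResData.um_val]
    fin_cases a <;> fin_cases b
    · simpa using D.val_pow_le_one i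
    · simpa using D.R_int i r hr
    · simp
    · simpa using D.val_pow_le_one j
  · rw [D.val_det_um]
    simp

/-- The index set of the Hermite forms of determinant `ϖⁿ` (ALL of them, primitive or not). -/
def Jdx263 (n : ℕ) : Finset (Σ _ : ℕ × ℕ, k) :=
  (Finset.HasAntidiagonal.antidiagonal n).sigma (fun p => D.R p.1)

theorem mem_Jdx263 {n : ℕ} {x : Σ _ : ℕ × ℕ, k} :
    x ∈ Jdx263 D n ↔ x.1.1 + x.1.2 = n ∧ x.2 ∈ D.R x.1.1 := by
  simp [Jdx263, Finset.mem_sigma]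

theorem inS_fam263 (m : ℤ) {n : ℕ} {x : Σ _ : ℕ × ℕ, k} (hx : x ∈ Jdx263 D n) :
    InS263 n m (D.fam m x) := by
  obtain ⟨h1, h2⟩ := (mem_Jdx263 D).1 hx
  have h := inS_sc_mul263 D m (inS_um263 D (j := x.1.2) h2)
  rw [h1, zero_add] at h
  exact h

theorem fam_cover263 (m : ℤ) (n : ℕ) (g : GL (Fin 2) k) (hg : InS263 n m g) :
    ∃ x ∈ Jdx263 D n, InK ((D.fam m x)⁻¹ * g) := by
  have h0 : InS263 n 0 (D.sc (-m) * g) := by
    have := inS_sc_mul263 D (-m) hg
    rwa [add_neg_cancel] at this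
  have hint : ∀ i j, Valued.v (((D.sc (-m) * g : GL (Fin 2) k) :
      Matrix (Fin 2) (Fin 2) k) i j) ≤ 1 := by
    intro i j
    have := h0.1 i j
    rwa [neg_zero, WithZero.exp_zero] at this
  obtain ⟨i, j, r, hr, κ, hκ, hκe⟩ := D.hnf (D.sc (-m) * g) hint
  have hij : i + j = n := by
    have h1 := D.val_det_um i j r
    rw [← hκe, val_det_mul _ κ hκ, h0.2, WithZero.exp_inj] at h1
    omega
  refine ⟨⟨(i, j), r⟩, (mem_Jdx263 D).2 ⟨hij, hr⟩, ?_⟩
  rw [D.fam_inv_mul]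
  show InK ((D.um i j r)⁻¹ * (D.sc (-m) * g))
  rw [← hκe]
  have e : (D.sc (-m) * g * κ)⁻¹ * (D.sc (-m) * g) = κ⁻¹ := by group
  rw [e]
  exact inK_inv hκ

theorem fam_inj263 (m : ℤ) {n n' : ℕ} {x y : Σ _ : ℕ × ℕ, k} (hx : x ∈ Jdx263 D n)
    (hy : y ∈ Jdx263 D n') (h : InK ((D.fam m x)⁻¹ * D.fam m y)) : x = y := by
  obtain ⟨h1, h2⟩ := (mem_Jdx263 D).1 hx
  obtain ⟨h1', h2'⟩ := (mem_Jdx263 D).1 hy
  have e : (D.fam m x)⁻¹ * D.fam m y = (D.um x.1.1 x.1.2 x.2)⁻¹ * D.um y.1.1 y.1.2 y.2 := by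
    rw [D.fam_inv_mul, ResData.fam, ← mul_assoc (D.sc (-m)), ← D.sc_add]
    simp [D.sc_zero]
  rw [e] at h
  have hdet : Valued.v (D.um y.1.1 y.1.2 y.2 : Matrix (Fin 2) (Fin 2) k).det
      = Valued.v (D.um x.1.1 x.1.2 x.2 : Matrix (Fin 2) (Fin 2) k).det := by
    have e2 : D.um y.1.1 y.1.2 y.2
        = D.um x.1.1 x.1.2 x.2 * ((D.um x.1.1 x.1.2 x.2)⁻¹ * D.um y.1.1 y.1.2 y.2) := by
      group
    rw [e2]
    exact val_det_mul _ _ h
  rw [D.val_det_um, D.val_det_um, WithZero.exp_inj] at hdet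
  obtain ⟨e1, e2, e3⟩ := D.um_inj (by omega) h2 h2' h
  obtain ⟨⟨i, j⟩, r⟩ := x
  obtain ⟨⟨i', j'⟩, r'⟩ := y
  simp only at e1 e2 e3
  subst e1
  subst e2
  subst e3
  rfl

/-- The sum over all Hermite forms is `s^m` times the sum `Aall` of helper305. -/
theorem sum_Jdx_fam263 (Φ : GL (Fin 2) k → ℂ) (s : ℂ) (hs : s ≠ 0)
    (hS : ∀ g, Φ (g * D.sc 1) = s * Φ g) (m : ℤ) (n : ℕ) (g : GL (Fin 2) k) :
    ∑ x ∈ Jdx263 D n, Φ (g * D.fam m x) = s ^ m * D.Aall Φ n g := by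
  rw [Jdx263, Finset.sum_sigma]
  unfold ResData.Aall ResData.Fall
  rw [Finset.mul_sum]
  refine Finset.sum_congr rfl (fun p _ => ?_)
  rw [Finset.mul_sum]
  refine Finset.sum_congr rfl (fun r _ => ?_)
  rw [ResData.fam, D.sc_comm, ← mul_assoc, D.sc_zpow_eigen Φ s hs hS]

end Res

end Fermat.Agent.LT.T3.H263

end
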