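import Fermat.Agent.LT.T3.H263.SatMeasure

/-!
# Row LT, tower T3, station T3.18a, leaf AS.1 `SatakeLocC` (helper263), OFF-MAIN -- part 4

Abstract nonarchimedean local field `k` with residue data `D` and compact ring of integers.
The functions `A : ℤ² → ℂ` having a Satake pair `(f, A)` form a `ℂ`-subspace `satSub263 D`; it
contains the `A_{n,m}` (parts 2 and 3), hence the symmetric delta functions

    δ_{a,d} = 1{(a, a+d), (a+d, a)} = (√q)^{-d} (A_{d,a} - q A_{d-2,a+1})     (second term: d ≥ 2),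

hence every symmetric finitely supported `A`.
-/

set_option autoImplicit false

open scoped Classical

open MeasureTheory

noncomputable section

namespace Fermat.Agent.LT.T3.H263

open Fermat.Agent.LT.T6 Fermat.Agent.LT.T6.H305 Fermat.Agent.LT.T3.AS

variable {k : Type} [Field k] [Valued k Γ₀]

/-- The space of the `A` having a Satake pair `(f, A)`. -/
def satSub263 (D : ResData k) : Submodule ℂ (ℤ × ℤ → ℂ) where
  carrier := {A | ∃ f : GL (Fin 2) k → ℂ, IsSatAlg263 D f A ∧ HasN263 D f A}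
  zero_mem' := ⟨fun _ => 0, isSatAlg_zero263 D, hasN_zero263 D⟩
  add_mem' := by
    rintro A B ⟨f, hf, hf'⟩ ⟨g, hg, hg'⟩
    exact ⟨_, isSatAlg_add263 D hf hg, hasN_add263 D hf' hg'⟩
  smul_mem' := by
    rintro c A ⟨f, hf, hf'⟩
    exact ⟨_, isSatAlg_smul263 D hf c, hasN_smul263 D hf' c⟩

theorem mem_satSub263 (D : ResData k) (A : ℤ × ℤ → ℂ) :
    A ∈ satSub263 D ↔ ∃ f : GL (Fin 2) k → ℂ, IsSatAlg263 D f A ∧ HasN263 D f A :=
  Iff.rfl

theorem acoef_mem263 (D : ResData k) (hcpt : IsCompact {x : k | Valued.v x ≤ 1})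
    (n : ℕ) (m : ℤ) : Acoef263 D n m ∈ satSub263 D :=
  ⟨Tind263 n m, isSatAlg_tind263 D n m, hasN_tind263 D hcpt n m⟩

/-- The symmetric delta function at `(a, a + d)`. -/
def Dsym263 (a : ℤ) (d : ℕ) (x : ℤ × ℤ) : ℂ :=
  if (x.1 = a ∧ x.2 = a + (d : ℤ)) ∨ (x.1 = a + (d : ℤ) ∧ x.2 = a) then 1 else 0

theorem sq_ne_zero263 (D : ResData k) : sq263 D ≠ 0 := by
  unfold sq263
  rw [Complex.ofReal_ne_zero]
  have h : (0 : ℝ) < (D.T.card : ℝ) := by
    have := card_pos263 D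
    positivity
  exact (Real.sqrt_pos.2 h).ne'

theorem acoef_small263 (D : ResData k) (a : ℤ) (d : ℕ) (hd : d ≤ 1) (x : ℤ × ℤ) :
    Acoef263 D d a x = sq263 D ^ d * Dsym263 a d x := by
  unfold Acoef263 Dsym263
  by_cases h3 : (x.1 = a ∧ x.2 = a + (d : ℤ)) ∨ (x.1 = a + (d : ℤ) ∧ x.2 = a)
  · have h1 : a ≤ x.1 ∧ a ≤ x.2 ∧ x.1 + x.2 = (d : ℤ) + 2 * a := by omega
    rw [if_pos h1, if_pos h3, mul_one]
  · have h1 : ¬ (a ≤ x.1 ∧ a ≤ x.2 ∧ x.1 + x.2 = (d : ℤ) + 2 * a) := by omega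
    rw [if_neg h1, if_neg h3, mul_zero]

theorem acoef_sub263 (D : ResData k) (a : ℤ) (d : ℕ) (x : ℤ × ℤ) :
    Acoef263 D (d + 2) a x - (D.T.card : ℂ) * Acoef263 D d (a + 1) x
      = sq263 D ^ (d + 2) * Dsym263 a (d + 2) x := by
  have hq := sq_sq263 D
  unfold Acoef263 Dsym263
  by_cases h3 : (x.1 = a ∧ x.2 = a + ((d + 2 : ℕ) : ℤ)) ∨ (x.1 = a + ((d + 2 : ℕ) : ℤ) ∧ x.2 = a)
  · have h1 : a ≤ x.1 ∧ a ≤ x.2 ∧ x.1 + x.2 = ((d + 2 : ℕ) : ℤ) + 2 * a := by omega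
    have h2 : ¬ (a + 1 ≤ x.1 ∧ a + 1 ≤ x.2 ∧ x.1 + x.2 = (d : ℤ) + 2 * (a + 1)) := by omega
    rw [if_pos h1, if_neg h2, if_pos h3]
    ring
  · by_cases h1 : a ≤ x.1 ∧ a ≤ x.2 ∧ x.1 + x.2 = ((d + 2 : ℕ) : ℤ) + 2 * a
    · have h2 : a + 1 ≤ x.1 ∧ a + 1 ≤ x.2 ∧ x.1 + x.2 = (d : ℤ) + 2 * (a + 1) := by omega
      rw [if_pos h1, if_pos h2, if_neg h3, ← hq]
      ring
    · have h2 : ¬ (a + 1 ≤ x.1 ∧ a + 1 ≤ x.2 ∧ x.1 + x.2 = (d : ℤ) + 2 * (a + 1)) := by omega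
      rw [if_neg h1, if_neg h2, if_neg h3]
      ring

theorem dsym_mem263 (D : ResData k) (hcpt : IsCompact {x : k | Valued.v x ≤ 1})
    (a : ℤ) (d : ℕ) : Dsym263 a d ∈ satSub263 D := by
  have hne : ∀ n : ℕ, sq263 D ^ n ≠ 0 := fun n => pow_ne_zero n (sq_ne_zero263 D)
  rcases d with _ | _ | d
  · have e : Dsym263 a 0 = (sq263 D ^ 0)⁻¹ • Acoef263 D 0 a := by
      funext x
      rw [Pi.smul_apply, smul_eq_mul, acoef_small263 D a 0 (by omega) x, ← mul_assoc,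
        inv_mul_cancel₀ (hne 0), one_mul]
    rw [e]
    exact Submodule.smul_mem _ _ (acoef_mem263 D hcpt 0 a)
  · have e : Dsym263 a (0 + 1) = (sq263 D ^ (0 + 1))⁻¹ • Acoef263 D (0 + 1) a := by
      funext x
      rw [Pi.smul_apply, smul_eq_mul, acoef_small263 D a (0 + 1) (by omega) x, ← mul_assoc,
        inv_mul_cancel₀ (hne (0 + 1)), one_mul]
    rw [e]
    exact Submodule.smul_mem _ _ (acoef_mem263 D hcpt (0 + 1) a)
  · have e : Dsym263 a (d + 1 + 1) = (sq263 D ^ (d + 2))⁻¹ •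
        (Acoef263 D (d + 2) a - (D.T.card : ℂ) • Acoef263 D d (a + 1)) := by
      funext x
      rw [Pi.smul_apply, Pi.sub_apply, Pi.smul_apply, smul_eq_mul, smul_eq_mul,
        acoef_sub263 D a d x, ← mul_assoc, inv_mul_cancel₀ (hne (d + 2)), one_mul]
    rw [e]
    exact Submodule.smul_mem _ _ (Submodule.sub_mem _ (acoef_mem263 D hcpt (d + 2) a)
      (Submodule.smul_mem _ _ (acoef_mem263 D hcpt d (a + 1))))

/-- Every symmetric finitely supported `A` has a Satake pair. -/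
theorem mem_satSub_of_symfin263 (D : ResData k) (hcpt : IsCompact {x : k | Valued.v x ≤ 1})
    (A : ℤ × ℤ → ℂ) (hfin : (Function.support A).Finite)
    (hsym : ∀ m₁ m₂ : ℤ, A (m₁, m₂) = A (m₂, m₁)) : A ∈ satSub263 D := by
  have e : A = ∑ p ∈ hfin.toFinset.filter (fun p : ℤ × ℤ => p.1 ≤ p.2),
      A p • Dsym263 p.1 (p.2 - p.1).toNat := by
    funext x
    rw [Finset.sum_apply]
    have hx' : ∃ x' : ℤ × ℤ, x'.1 ≤ x'.2 ∧ A x = A x' ∧
        ((x.1 = x'.1 ∧ x.2 = x'.2) ∨ (x.1 = x'.2 ∧ x.2 = x'.1)) := by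
      by_cases h : x.1 ≤ x.2
      · exact ⟨x, h, rfl, Or.inl ⟨rfl, rfl⟩⟩
      · exact ⟨(x.2, x.1), by simp only; omega, hsym x.1 x.2, Or.inr ⟨rfl, rfl⟩⟩
    obtain ⟨x', hle', hAx, hxx'⟩ := hx'
    have key : ∀ p ∈ hfin.toFinset.filter (fun p : ℤ × ℤ => p.1 ≤ p.2),
        (A p • Dsym263 p.1 (p.2 - p.1).toNat) x = if p = x' then A p else 0 := by
      intro p hp
      have hle : p.1 ≤ p.2 := (Finset.mem_filter.1 hp).2
      rw [Pi.smul_apply, smul_eq_mul]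
      unfold Dsym263
      by_cases hpx : p = x'
      · have hc : (x.1 = p.1 ∧ x.2 = p.1 + ((p.2 - p.1).toNat : ℤ)) ∨
            (x.1 = p.1 + ((p.2 - p.1).toNat : ℤ) ∧ x.2 = p.1) := by
          subst hpx
          omega
        rw [if_pos hpx, if_pos hc, mul_one]
      · have hc : ¬ ((x.1 = p.1 ∧ x.2 = p.1 + ((p.2 - p.1).toNat : ℤ)) ∨
            (x.1 = p.1 + ((p.2 - p.1).toNat : ℤ) ∧ x.2 = p.1)) := by
          intro hcon
          apply hpx
          ext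
          · omega
          · omega
        rw [if_neg hpx, if_neg hc, mul_zero]
    rw [Finset.sum_congr rfl key, Finset.sum_ite_eq']
    split_ifs with hmem
    · exact hAx
    · rw [hAx]
      by_contra h0
      apply hmem
      rw [Finset.mem_filter, Set.Finite.mem_toFinset, Function.mem_support]
      exact ⟨fun h => h0 h, hle'⟩
  rw [e]
  exact Submodule.sum_mem _ (fun p _ => Submodule.smul_mem _ _ (dsym_mem263 D hcpt _ _))

end Fermat.Agent.LT.T3.H263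

end
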