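import Fermat.Agent.LT.T3.H263.SatSys
import Fermat.Agent.LT.T3.H736.ASSpec

/-!
# Row LT, tower T3, station T3.18a, leaf AS.1 `SatakeLocC` (helper263), OFF-MAIN -- part 3

Abstract nonarchimedean local field `k` with residue data `D` and COMPACT ring of integers.
The `N`-integral of `T_{n,m}`:

    ∫ T_{n,m} [[c₁, x], [0, c₂]] dν₀(x) = ν₀(𝒪) q^{-(m₁+m₂)/2} A_{n,m}(m₁, m₂),  m_i = ord c_i,

for every Haar measure `ν₀` of `k`: the integrand is the indicator function of `ϖ^m 𝒪` when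
`m₁, m₂ ≥ m`, `m₁ + m₂ = n + 2m` and `0` otherwise, and `ν₀(ϖ^m 𝒪) = q^{-m} ν₀(𝒪)` by the
decomposition `ϖ^m 𝒪 = ⊔_{d ∈ T} (ϖ^m d + ϖ^{m+1} 𝒪)`.
-/

set_option autoImplicit false

open scoped Classical

open MeasureTheory

noncomputable section

namespace Fermat.Agent.LT.T3.H263

open Fermat.Agent.LT.T6 Fermat.Agent.LT.T6.H305 Fermat.Agent.LT.T3.AS

variable {k : Type} [Field k] [Valued k Γ₀]

/-- The additive valuation (junk value at `0`). -/
def ord263 (c : k) : ℤ := - WithZero.log (Valued.v c)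

theorem val_eq_exp_ord263 {c : k} (hc : c ≠ 0) : Valued.v c = WithZero.exp (-ord263 c) := by
  unfold ord263
  rw [neg_neg, WithZero.exp_log]
  exact (Valuation.ne_zero_iff _).2 hc

/-- The ball `ϖ^m 𝒪`. -/
def ball263 (m : ℤ) : Set k := {x | Valued.v x ≤ WithZero.exp (-m)}

theorem exp_mul_exp263 (a b : ℤ) :
    (WithZero.exp a : Γ₀) * WithZero.exp b = WithZero.exp (a + b) :=
  (WithZero.exp_add a b).symm

theorem val_le_exp_iff263 (D : ResData k) (m : ℤ) (x : k) :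
    Valued.v x ≤ WithZero.exp (-m) ↔ Valued.v (D.ϖ ^ (-m) * x) ≤ 1 := by
  rw [map_mul, D.val_zpow, neg_neg]
  constructor
  · intro h
    calc (WithZero.exp m : Γ₀) * Valued.v x ≤ WithZero.exp m * WithZero.exp (-m) :=
          mul_le_mul' le_rfl h
      _ = 1 := by rw [exp_mul_exp263, add_neg_cancel, WithZero.exp_zero]
  · intro h
    have e : Valued.v x = WithZero.exp (-m) * (WithZero.exp m * Valued.v x) := by
      rw [← mul_assoc, exp_mul_exp263, neg_add_cancel, WithZero.exp_zero, one_mul]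
    rw [e]
    calc (WithZero.exp (-m) : Γ₀) * (WithZero.exp m * Valued.v x)
        ≤ WithZero.exp (-m) * 1 := mul_le_mul' le_rfl h
      _ = WithZero.exp (-m) := mul_one _

theorem ball_zero263 : ball263 (k := k) 0 = {x : k | Valued.v x ≤ 1} := by
  unfold ball263
  rw [neg_zero, WithZero.exp_zero]

theorem isClosed_ball263 (D : ResData k) (m : ℤ) : IsClosed (ball263 (k := k) m) := by
  have e : ball263 (k := k) m = (fun x => D.ϖ ^ (-m) * x) ⁻¹' {x : k | Valued.v x ≤ 1} := by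
    ext x
    exact val_le_exp_iff263 D m x
  rw [e]
  have hc : IsClosed {x : k | Valued.v x ≤ 1} := Valued.isClosed_valuationSubring k
  exact hc.preimage (by fun_prop)

/-- `ϖ^m 𝒪 = ⊔_{d ∈ T} (ϖ^m d + ϖ^{m+1} 𝒪)`. -/
theorem ball_eq_iUnion263 (D : ResData k) (m : ℤ) :
    ball263 (k := k) m
      = ⋃ d ∈ D.T, (fun x => -(D.ϖ ^ m * d) + x) ⁻¹' ball263 (m + 1) := by
  ext x
  simp only [Set.mem_iUnion, Set.mem_preimage, ball263, Set.mem_ofPred_eq, exists_prop]
  constructor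
  · intro hx
    have h1 : Valued.v (D.ϖ ^ (-m) * x) ≤ 1 := (val_le_exp_iff263 D m x).1 hx
    obtain ⟨d, hd, hlt⟩ := D.cov _ h1
    refine ⟨d, hd, ?_⟩
    have hone : D.ϖ ^ m * D.ϖ ^ (-m) = 1 := by
      rw [← zpow_add₀ D.ϖ_ne_zero, add_neg_cancel, zpow_zero]
    have e : -(D.ϖ ^ m * d) + x = D.ϖ ^ m * (D.ϖ ^ (-m) * x - d) := by
      linear_combination (-x) * hone
    rw [e, map_mul, D.val_zpow]
    have h2 := (lt_one_iff_le_exp _).1 hlt
    calc (WithZero.exp (-m) : Γ₀) * Valued.v (D.ϖ ^ (-m) * x - d)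
        ≤ WithZero.exp (-m) * WithZero.exp (-1 : ℤ) := mul_le_mul' le_rfl h2
      _ = WithZero.exp (-(m + 1)) := by
          rw [exp_mul_exp263]
          congr 1
          ring
  · rintro ⟨d, hd, hx⟩
    have e : x = (-(D.ϖ ^ m * d) + x) + D.ϖ ^ m * d := by ring
    rw [e]
    refine Valuation.map_add_le _ (hx.trans ?_) ?_
    · rw [WithZero.exp_le_exp]
      omega
    · rw [map_mul, D.val_zpow]
      calc (WithZero.exp (-m) : Γ₀) * Valued.v d ≤ WithZero.exp (-m) * 1 :=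
            mul_le_mul' le_rfl (D.int d hd)
        _ = WithZero.exp (-m) := mul_one _

theorem ball_pieces_disjoint263 (D : ResData k) (m : ℤ) :
    (D.T : Set k).PairwiseDisjoint
      (fun d => (fun x => -(D.ϖ ^ m * d) + x) ⁻¹' ball263 (k := k) (m + 1)) := by
  intro d hd d' hd' hne
  rw [Function.onFun, Set.disjoint_left]
  intro x hx hx'
  simp only [Set.mem_preimage, ball263, Set.mem_ofPred_eq] at hx hx'
  have e : D.ϖ ^ m * (d' - d) = (-(D.ϖ ^ m * d) + x) - (-(D.ϖ ^ m * d') + x) := by ring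
  have h1 : Valued.v (D.ϖ ^ m * (d' - d)) ≤ WithZero.exp (-(m + 1)) := by
    rw [e]
    exact Valuation.map_sub_le _ hx hx'
  rw [map_mul, D.val_zpow, D.sep d' hd' d hd (Ne.symm hne), mul_one, WithZero.exp_le_exp] at h1
  omega

theorem card_pos263 (D : ResData k) : 0 < D.T.card :=
  Finset.card_pos.2 ⟨0, D.zero_mem⟩

section Meas

variable [MeasurableSpace k] [BorelSpace k]

theorem measurableSet_ball263 (D : ResData k) (m : ℤ) : MeasurableSet (ball263 (k := k) m) :=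
  (isClosed_ball263 D m).measurableSet

theorem measure_ball_succ263 (D : ResData k) (ν : Measure k) [ν.IsAddHaarMeasure] (m : ℤ) :
    ν (ball263 m) = (D.T.card : ENNReal) * ν (ball263 (m + 1)) := by
  rw [ball_eq_iUnion263 D m, measure_biUnion_finset (ball_pieces_disjoint263 D m)]
  · rw [Finset.sum_congr rfl (fun d _ => measure_preimage_add ν (-(D.ϖ ^ m * d)) _),
      Finset.sum_const, nsmul_eq_mul]
  · intro d _
    exact ((isClosed_ball263 D (m + 1)).preimage (by fun_prop)).measurableSet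

theorem measure_ball_nat263 (D : ResData k) (ν : Measure k) [ν.IsAddHaarMeasure] (n : ℕ) :
    ν (ball263 0) = (D.T.card : ENNReal) ^ n * ν (ball263 (n : ℤ)) := by
  induction n with
  | zero => simp
  | succ n ih =>
    rw [ih, measure_ball_succ263 D ν (n : ℤ), pow_succ, mul_assoc]
    push_cast
    rfl

theorem measure_ball_neg263 (D : ResData k) (ν : Measure k) [ν.IsAddHaarMeasure] (n : ℕ) :
    ν (ball263 (-(n : ℤ))) = (D.T.card : ENNReal) ^ n * ν (ball263 0) := by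
  induction n with
  | zero => simp
  | succ n ih =>
    rw [measure_ball_succ263 D ν (-((n + 1 : ℕ) : ℤ))]
    have e : -((n + 1 : ℕ) : ℤ) + 1 = -(n : ℤ) := by
      push_cast
      ring
    rw [e, ih, pow_succ, ← mul_assoc, mul_comm ((D.T.card : ENNReal) ^ n)]

/-- `ν₀(ϖ^m 𝒪) = q^{-m} ν₀(𝒪)`. -/
theorem measure_ball_real263 (D : ResData k) (ν : Measure k) [ν.IsAddHaarMeasure] (m : ℤ) :
    (ν (ball263 m)).toReal = (D.T.card : ℝ) ^ (-m) * (ν (ball263 0)).toReal := by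
  have hq : (D.T.card : ℝ) ≠ 0 := by
    have := card_pos263 D
    positivity
  obtain ⟨n, rfl | rfl⟩ := Int.eq_nat_or_neg m
  · have h := congrArg ENNReal.toReal (measure_ball_nat263 D ν n)
    rw [ENNReal.toReal_mul, ENNReal.toReal_pow, ENNReal.toReal_natCast] at h
    rw [h, zpow_neg, zpow_natCast, ← mul_assoc, inv_mul_cancel₀ (pow_ne_zero _ hq), one_mul]
  · have h := congrArg ENNReal.toReal (measure_ball_neg263 D ν n)
    rw [ENNReal.toReal_mul, ENNReal.toReal_pow, ENNReal.toReal_natCast] at h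
    rw [h, neg_neg, zpow_natCast]

theorem measure_ball_ne_top263 (D : ResData k) (hcpt : IsCompact {x : k | Valued.v x ≤ 1})
    (ν : Measure k) [ν.IsAddHaarMeasure] (m : ℤ) : ν (ball263 m) ≠ ⊤ := by
  have h0 : ν (ball263 0) ≠ ⊤ := by
    rw [ball_zero263]
    exact hcpt.measure_lt_top.ne
  obtain ⟨n, rfl | rfl⟩ := Int.eq_nat_or_neg m
  · refine ne_top_of_le_ne_top h0 (measure_mono ?_)
    intro x hx
    have hx' : Valued.v x ≤ WithZero.exp (-(n : ℤ)) := hx
    show Valued.v x ≤ WithZero.exp (-(0 : ℤ))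
    refine le_trans hx' ?_
    rw [WithZero.exp_le_exp]
    omega
  · rw [measure_ball_neg263 D ν n]
    exact ENNReal.mul_ne_top (ENNReal.pow_ne_top (ENNReal.natCast_ne_top _)) h0

end Meas

/-! ## The `N`-integral -/

/-- The abstract form of `AS.HasSatakeN`, with integrability. -/
def HasN263 (D : ResData k) (f : GL (Fin 2) k → ℂ) (A : ℤ × ℤ → ℂ) : Prop :=
  letI : MeasurableSpace k := borel k
  ∀ ν₀ : Measure k, ν₀.IsAddHaarMeasure → ∀ c₁ c₂ : kˣ,
    Integrable (fun x => f (upperGL c₁ c₂ x)) ν₀ ∧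
    ∫ x, f (upperGL c₁ c₂ x) ∂ν₀
      = ((ν₀ {x : k | Valued.v x ≤ 1}).toReal : ℂ)
        * ((((D.T.card : ℝ)) ^ (-(((ord263 (c₁ : k) + ord263 (c₂ : k) : ℤ) : ℝ)) / 2) : ℝ) : ℂ)
        * A (ord263 (c₁ : k), ord263 (c₂ : k))

theorem hasN_zero263 (D : ResData k) : HasN263 D (fun _ => 0) (fun _ => 0) := by
  letI : MeasurableSpace k := borel k
  intro ν₀ _ c₁ c₂
  refine ⟨integrable_zero _ _ _, ?_⟩
  simp

theorem hasN_add263 (D : ResData k) {f₁ f₂ : GL (Fin 2) k → ℂ} {A₁ A₂ : ℤ × ℤ → ℂ}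
    (h₁ : HasN263 D f₁ A₁) (h₂ : HasN263 D f₂ A₂) :
    HasN263 D (fun g => f₁ g + f₂ g) (fun m => A₁ m + A₂ m) := by
  letI : MeasurableSpace k := borel k
  intro ν₀ hν₀ c₁ c₂
  obtain ⟨i₁, e₁⟩ := h₁ ν₀ hν₀ c₁ c₂
  obtain ⟨i₂, e₂⟩ := h₂ ν₀ hν₀ c₁ c₂
  refine ⟨i₁.add i₂, ?_⟩
  rw [integral_add i₁ i₂, e₁, e₂]
  ring

theorem hasN_smul263 (D : ResData k) {f : GL (Fin 2) k → ℂ} {A : ℤ × ℤ → ℂ}
    (h : HasN263 D f A) (c : ℂ) :
    HasN263 D (fun g => c * f g) (fun m => c * A m) := by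
  letI : MeasurableSpace k := borel k
  intro ν₀ hν₀ c₁ c₂
  obtain ⟨i₁, e₁⟩ := h ν₀ hν₀ c₁ c₂
  refine ⟨i₁.const_mul c, ?_⟩
  rw [integral_const_mul, e₁]
  ring

omit [Valued k Γ₀] in
theorem upperGL_apply263 (c₁ c₂ : kˣ) (x : k) :
    ((upperGL c₁ c₂ x : GL (Fin 2) k) : Matrix (Fin 2) (Fin 2) k) = !![(c₁ : k), x; 0, (c₂ : k)] :=
  rfl

/-- The condition on `(m₁, m₂) = (ord c₁, ord c₂)`. -/
def Cond263 (n : ℕ) (m : ℤ) (x : ℤ × ℤ) : Prop :=
  m ≤ x.1 ∧ m ≤ x.2 ∧ x.1 + x.2 = (n : ℤ) + 2 * m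

theorem inS_upper263 (n : ℕ) (m : ℤ) (c₁ c₂ : kˣ) (x : k) :
    InS263 n m (upperGL c₁ c₂ x)
      ↔ Cond263 n m (ord263 (c₁ : k), ord263 (c₂ : k)) ∧ x ∈ ball263 m := by
  have v₁ := val_eq_exp_ord263 (c := (c₁ : k)) c₁.ne_zero
  have v₂ := val_eq_exp_ord263 (c := (c₂ : k)) c₂.ne_zero
  have hdet : Valued.v ((upperGL c₁ c₂ x : GL (Fin 2) k) : Matrix (Fin 2) (Fin 2) k).det
      = WithZero.exp (-(ord263 (c₁ : k) + ord263 (c₂ : k))) := by
    rw [upperGL_apply263, Matrix.det_fin_two_of, mul_zero, sub_zero, map_mul, v₁, v₂,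
      exp_mul_exp263]
    congr 1
    ring
  unfold InS263 Cond263
  rw [hdet, WithZero.exp_inj]
  constructor
  · rintro ⟨hent, hd⟩
    have h00 := hent 0 0
    have h01 := hent 0 1
    have h11 := hent 1 1
    rw [upperGL_apply263] at h00 h01 h11
    simp only [Matrix.of_apply, Matrix.cons_val', Matrix.cons_val_zero, Matrix.cons_val_one,
      Matrix.cons_val_fin_one] at h00 h01 h11
    rw [v₁, WithZero.exp_le_exp] at h00
    rw [v₂, WithZero.exp_le_exp] at h11
    refine ⟨⟨by omega, by omega, by omega⟩, h01⟩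
  · rintro ⟨⟨h1, h2, h3⟩, hx⟩
    refine ⟨fun i j => ?_, by omega⟩
    rw [upperGL_apply263]
    fin_cases i <;> fin_cases j
    · simp only [Fin.zero_eta, Matrix.of_apply, Matrix.cons_val', Matrix.cons_val_zero,
        Matrix.cons_val_fin_one]
      rw [v₁, WithZero.exp_le_exp]
      omega
    · exact hx
    · simp
    · simp only [Fin.mk_one, Matrix.of_apply, Matrix.cons_val', Matrix.cons_val_one,
        Matrix.cons_val_fin_one]
      rw [v₂, WithZero.exp_le_exp]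
      omega

theorem tind_upper263 (n : ℕ) (m : ℤ) (c₁ c₂ : kˣ) :
    (fun x : k => Tind263 n m (upperGL c₁ c₂ x))
      = if Cond263 n m (ord263 (c₁ : k), ord263 (c₂ : k))
          then (ball263 (k := k) m).indicator (fun _ => (1 : ℂ)) else fun _ => 0 := by
  funext x
  unfold Tind263
  by_cases hc : Cond263 n m (ord263 (c₁ : k), ord263 (c₂ : k))
  · rw [if_pos hc]
    by_cases hx : x ∈ ball263 (k := k) m
    · rw [if_pos ((inS_upper263 n m c₁ c₂ x).2 ⟨hc, hx⟩), Set.indicator_of_mem hx]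
    · rw [if_neg (fun h => hx ((inS_upper263 n m c₁ c₂ x).1 h).2),
        Set.indicator_of_notMem hx]
  · rw [if_neg hc, if_neg (fun h => hc ((inS_upper263 n m c₁ c₂ x).1 h).1)]

theorem rpow_half_mul263 (q : ℝ) (hq : 0 < q) (n : ℕ) (m : ℤ) :
    q ^ (-(((n : ℤ) + 2 * m : ℤ) : ℝ) / 2) * Real.sqrt q ^ n = q ^ (-m) := by
  rw [Real.sqrt_eq_rpow, ← Real.rpow_natCast (q ^ (1 / 2 : ℝ)) n, ← Real.rpow_mul hq.le,
    ← Real.rpow_add hq, ← Real.rpow_intCast]
  congr 1
  push_cast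
  ring

theorem hasN_tind263 (D : ResData k) (hcpt : IsCompact {x : k | Valued.v x ≤ 1})
    (n : ℕ) (m : ℤ) : HasN263 D (Tind263 n m) (Acoef263 D n m) := by
  letI : MeasurableSpace k := borel k
  haveI : BorelSpace k := ⟨rfl⟩
  intro ν₀ hν₀ c₁ c₂
  haveI := hν₀
  rw [tind_upper263]
  by_cases hc : Cond263 n m (ord263 (c₁ : k), ord263 (c₂ : k))
  · rw [if_pos hc]
    refine ⟨?_, ?_⟩
    · rw [integrable_indicator_iff (measurableSet_ball263 D m)]
      exact integrableOn_const (measure_ball_ne_top263 D hcpt ν₀ m)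
    · rw [integral_indicator_const _ (measurableSet_ball263 D m)]
      have hA : Acoef263 D n m (ord263 (c₁ : k), ord263 (c₂ : k)) = sq263 D ^ n := by
        unfold Acoef263
        exact if_pos hc
      have hsum : ord263 (c₁ : k) + ord263 (c₂ : k) = (n : ℤ) + 2 * m := hc.2.2
      rw [hA, hsum, Measure.real, measure_ball_real263 D ν₀ m, ball_zero263]
      have hq : (0 : ℝ) < (D.T.card : ℝ) := by
        have := card_pos263 D
        positivity
      have key := rpow_half_mul263 (D.T.card : ℝ) hq n m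
      unfold sq263
      rw [Complex.real_smul, mul_one, mul_assoc, ← Complex.ofReal_pow, ← Complex.ofReal_mul,
        key, ← Complex.ofReal_mul, mul_comm]
  · rw [if_neg hc]
    refine ⟨integrable_zero _ _ _, ?_⟩
    have hA : Acoef263 D n m (ord263 (c₁ : k), ord263 (c₂ : k)) = 0 := by
      unfold Acoef263
      exact if_neg hc
    rw [hA]
    simp

end Fermat.Agent.LT.T3.H263

end
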