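import Fermat.Agent.LT.T3.H263.SatAbs

/-!
# Row LT, tower T3, station T3.18a, leaf AS.1 `SatakeLocC` (helper263), OFF-MAIN -- part 2

Abstract nonarchimedean local field `k` with residue data `D`.  The algebraic half of a Satake
pair `(f, A)`:

* `IsRep263 f R`   : `R` is a system of pairwise inequivalent representatives of cosets
                     `h GL₂(𝒪)` covering the support of `f`;
* `sum_rep_eq263`  : the sum `∑_{h ∈ R} f h Φ(y h)` does not depend on `R`;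
* `IsSatAlg263 D f A` : `f` is bi-invariant, has a system of representatives, `A` is finitely
                     supported and `f` acts on every eigenfunction of `T`, `S` with parameters
                     `√q (z₁ + z₂)`, `z₁ z₂` by `∑ A(m) z₁^{m₁} z₂^{m₂}` -- over EVERY system;
* closure of `IsSatAlg263` under `0`, `+`, scalar multiples;
* the base case `T_{n,m}`, `A_{n,m} = (√q)^n 1{m₁, m₂ ≥ m, m₁ + m₂ = n + 2m}`.
-/

set_option autoImplicit false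

open scoped Classical

noncomputable section

namespace Fermat.Agent.LT.T3.H263

open Fermat.Agent.LT.T6 Fermat.Agent.LT.T6.H305

variable {k : Type} [Field k] [Valued k Γ₀]

/-- Right invariance under `GL₂(𝒪)`. -/
def IsRInv263 (f : GL (Fin 2) k → ℂ) : Prop :=
  ∀ u g : GL (Fin 2) k, InK u → f (g * u) = f g

/-- Left invariance under `GL₂(𝒪)`. -/
def IsLInv263 (f : GL (Fin 2) k → ℂ) : Prop :=
  ∀ u g : GL (Fin 2) k, InK u → f (u * g) = f g

/-- `R` is pairwise inequivalent modulo `GL₂(𝒪)` on the right. -/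
def IsIneq263 (R : Finset (GL (Fin 2) k)) : Prop :=
  ∀ h ∈ R, ∀ h' ∈ R, InK (h⁻¹ * h') → h = h'

/-- `R` is a system of representatives covering the support of `f`. -/
def IsRep263 (f : GL (Fin 2) k → ℂ) (R : Finset (GL (Fin 2) k)) : Prop :=
  IsIneq263 R ∧ ∀ g : GL (Fin 2) k, f g ≠ 0 → ∃ h ∈ R, InK (h⁻¹ * g)

theorem rinv_of_coset263 {f : GL (Fin 2) k → ℂ} (hf : IsRInv263 f) {a b : GL (Fin 2) k}
    (hK : InK (b⁻¹ * a)) : f a = f b := by
  have e : a = b * (b⁻¹ * a) := by group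
  rw [e]
  exact hf _ b hK

theorem inK_symm263 {a b : GL (Fin 2) k} (hK : InK (a⁻¹ * b)) : InK (b⁻¹ * a) := by
  have e : b⁻¹ * a = (a⁻¹ * b)⁻¹ := by group
  rw [e]
  exact inK_inv hK

theorem inK_trans263 {a b c : GL (Fin 2) k} (h1 : InK (a⁻¹ * b)) (h2 : InK (b⁻¹ * c)) :
    InK (a⁻¹ * c) := by
  have e : a⁻¹ * c = (a⁻¹ * b) * (b⁻¹ * c) := by group
  rw [e]
  exact inK_mul h1 h2

/-- The sum over a system of representatives does not depend on the system. -/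
theorem sum_rep_eq263 {f Φ : GL (Fin 2) k → ℂ} (hf : IsRInv263 f) (hΦ : IsRInv263 Φ)
    {R R' : Finset (GL (Fin 2) k)} (hR : IsRep263 f R) (hR' : IsRep263 f R')
    (y : GL (Fin 2) k) :
    ∑ h ∈ R, f h * Φ (y * h) = ∑ h ∈ R', f h * Φ (y * h) := by
  have key : ∀ {R₁ R₂ : Finset (GL (Fin 2) k)}, IsRep263 f R₁ → IsRep263 f R₂ →
      ∀ a ∈ R₁.filter (fun h => f h ≠ 0),
        ∃ b ∈ R₂.filter (fun h => f h ≠ 0), InK ((id b)⁻¹ * id a) := by
    intro R₁ R₂ _ h₂ a ha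
    rw [Finset.mem_filter] at ha
    obtain ⟨b, hb, hK⟩ := h₂.2 a ha.2
    refine ⟨b, Finset.mem_filter.2 ⟨hb, ?_⟩, hK⟩
    rw [← rinv_of_coset263 hf hK]
    exact ha.2
  rw [← Finset.sum_filter_of_ne (s := R) (p := fun h => f h ≠ 0)
      (fun h _ hne => left_ne_zero_of_mul hne),
    ← Finset.sum_filter_of_ne (s := R') (p := fun h => f h ≠ 0)
      (fun h _ hne => left_ne_zero_of_mul hne)]
  refine sum_eq_of_systems _ _ id id (fun h => f h * Φ (y * h)) ?_ (key hR hR') (key hR' hR)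
    ?_ ?_
  · intro u g hu
    show f (g * u) * Φ (y * (g * u)) = f g * Φ (y * g)
    rw [hf u g hu, ← mul_assoc, hΦ u (y * g) hu]
  · intro a ha a' ha' hK
    exact hR.1 a (Finset.mem_filter.1 ha).1 a' (Finset.mem_filter.1 ha').1 hK
  · intro a ha a' ha' hK
    exact hR'.1 a (Finset.mem_filter.1 ha).1 a' (Finset.mem_filter.1 ha').1 hK

/-- Two pairwise inequivalent systems have a common pairwise inequivalent refinement. -/
theorem exists_rep_merge263 (R₁ R₂ : Finset (GL (Fin 2) k)) (h₁ : IsIneq263 R₁)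
    (h₂ : IsIneq263 R₂) :
    ∃ R : Finset (GL (Fin 2) k), IsIneq263 R ∧
      ∀ g : GL (Fin 2) k, ((∃ h ∈ R₁, InK (h⁻¹ * g)) ∨ ∃ h ∈ R₂, InK (h⁻¹ * g)) →
        ∃ h ∈ R, InK (h⁻¹ * g) := by
  refine ⟨R₁ ∪ R₂.filter (fun h => ∀ h₁ ∈ R₁, ¬ InK (h₁⁻¹ * h)), ?_, ?_⟩
  · intro h hh h' hh' hK
    rw [Finset.mem_union, Finset.mem_filter] at hh hh'
    rcases hh with hh | ⟨hh, hn⟩ <;> rcases hh' with hh' | ⟨hh', hn'⟩
    · exact h₁ h hh h' hh' hK
    · exact absurd hK (hn' h hh)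
    · exact absurd (inK_symm263 hK) (hn h' hh')
    · exact h₂ h hh h' hh' hK
  · rintro g (⟨h, hh, hK⟩ | ⟨h, hh, hK⟩)
    · exact ⟨h, Finset.mem_union_left _ hh, hK⟩
    · by_cases hc : ∀ h₁ ∈ R₁, ¬ InK (h₁⁻¹ * h)
      · exact ⟨h, Finset.mem_union_right _ (Finset.mem_filter.2 ⟨hh, hc⟩), hK⟩
      · push Not at hc
        obtain ⟨h₁, hh₁, hK₁⟩ := hc
        exact ⟨h₁, Finset.mem_union_left _ hh₁, inK_trans263 hK₁ hK⟩

/-- An eigenfunction of `T = T_{1,0}` and `S = T_{0,1}`, right invariant under `GL₂(𝒪)`. -/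
structure IsEig263 (D : ResData k) (Φ : GL (Fin 2) k → ℂ) (t s : ℂ) : Prop where
  inv : IsRInv263 Φ
  hS : ∀ g, Φ (g * D.sc 1) = s * Φ g
  hT : ∀ g, Φ (g * D.um 0 1 0) + ∑ d ∈ D.T, Φ (g * D.um 1 0 d) = t * Φ g

/-- `√q` as a complex number, `q = #T`. -/
def sq263 (D : ResData k) : ℂ := ((Real.sqrt (D.T.card : ℝ) : ℝ) : ℂ)

theorem sq_sq263 (D : ResData k) : sq263 D ^ 2 = (D.T.card : ℂ) := by
  unfold sq263
  rw [← Complex.ofReal_pow, Real.sq_sqrt (Nat.cast_nonneg _)]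
  simp

/-- The Laurent polynomial `∑ A(m) z₁^{m₁} z₂^{m₂}`. -/
def laur263 (A : ℤ × ℤ → ℂ) (z₁ z₂ : ℂ) : ℂ := ∑ᶠ m : ℤ × ℤ, A m * z₁ ^ m.1 * z₂ ^ m.2

/-- `f` acts on the eigenfunctions with Satake parameters `z₁, z₂` by the Laurent polynomial of
`A`, the sum being taken over ANY system of representatives covering the support of `f`. -/
def ActsBy263 (D : ResData k) (f : GL (Fin 2) k → ℂ) (A : ℤ × ℤ → ℂ) : Prop :=
  ∀ (Φ : GL (Fin 2) k → ℂ) (z₁ z₂ : ℂ), z₁ * z₂ ≠ 0 →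
    IsEig263 D Φ (sq263 D * (z₁ + z₂)) (z₁ * z₂) →
    ∀ R : Finset (GL (Fin 2) k), IsRep263 f R → ∀ y : GL (Fin 2) k,
      ∑ h ∈ R, f h * Φ (y * h) = laur263 A z₁ z₂ * Φ y

/-- The algebraic half of a Satake pair. -/
structure IsSatAlg263 (D : ResData k) (f : GL (Fin 2) k → ℂ) (A : ℤ × ℤ → ℂ) : Prop where
  linv : IsLInv263 f
  rinv : IsRInv263 f
  rep : ∃ R : Finset (GL (Fin 2) k), IsRep263 f R
  fin : (Function.support A).Finite
  acts : ActsBy263 D f A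

theorem laur_support263 (A : ℤ × ℤ → ℂ) (z₁ z₂ : ℂ) :
    Function.support (fun m : ℤ × ℤ => A m * z₁ ^ m.1 * z₂ ^ m.2) ⊆ Function.support A := by
  intro m hm
  rw [Function.mem_support] at hm ⊢
  intro h0
  apply hm
  rw [h0, zero_mul, zero_mul]

theorem laur_add263 {A B : ℤ × ℤ → ℂ} (hA : (Function.support A).Finite)
    (hB : (Function.support B).Finite) (z₁ z₂ : ℂ) :
    laur263 (fun m => A m + B m) z₁ z₂ = laur263 A z₁ z₂ + laur263 B z₁ z₂ := by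
  unfold laur263
  rw [← finsum_add_distrib (hA.subset (laur_support263 A z₁ z₂))
    (hB.subset (laur_support263 B z₁ z₂))]
  refine finsum_congr (fun m => ?_)
  ring

theorem laur_smul263 (c : ℂ) (A : ℤ × ℤ → ℂ) (z₁ z₂ : ℂ) :
    laur263 (fun m => c * A m) z₁ z₂ = c * laur263 A z₁ z₂ := by
  unfold laur263
  rw [mul_finsum]
  refine finsum_congr (fun m => ?_)
  ring

theorem laur_zero263 (z₁ z₂ : ℂ) : laur263 (fun _ => 0) z₁ z₂ = 0 := by
  unfold laur263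
  simp

/-! ## Closure properties -/

theorem isSatAlg_zero263 (D : ResData k) : IsSatAlg263 D (fun _ => 0) (fun _ => 0) := by
  refine ⟨fun _ _ _ => rfl, fun _ _ _ => rfl, ⟨∅, ?_, ?_⟩, ?_, ?_⟩
  · intro h hh
    simp at hh
  · intro g hg
    exact absurd rfl hg
  · simp [Function.support]
  · intro Φ z₁ z₂ _ _ R _ y
    rw [laur_zero263]
    simp

theorem isSatAlg_smul263 (D : ResData k) {f : GL (Fin 2) k → ℂ} {A : ℤ × ℤ → ℂ}
    (h : IsSatAlg263 D f A) (c : ℂ) :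
    IsSatAlg263 D (fun g => c * f g) (fun m => c * A m) := by
  obtain ⟨R₀, hR₀⟩ := h.rep
  refine ⟨?_, ?_, ⟨R₀, hR₀.1, ?_⟩, ?_, ?_⟩
  · intro u g hu
    show c * f (u * g) = c * f g
    rw [h.linv u g hu]
  · intro u g hu
    show c * f (g * u) = c * f g
    rw [h.rinv u g hu]
  · intro g hg
    exact hR₀.2 g (right_ne_zero_of_mul hg)
  · refine h.fin.subset ?_
    intro m hm
    rw [Function.mem_support] at hm ⊢
    exact right_ne_zero_of_mul hm
  · intro Φ z₁ z₂ hz hΦ R hR y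
    rw [laur_smul263]
    by_cases hc : c = 0
    · subst hc
      simp
    · have hR' : IsRep263 f R := ⟨hR.1, fun g hg => hR.2 g (mul_ne_zero hc hg)⟩
      have := h.acts Φ z₁ z₂ hz hΦ R hR' y
      rw [mul_assoc, ← this, Finset.mul_sum]
      refine Finset.sum_congr rfl (fun x _ => ?_)
      ring

theorem isSatAlg_add263 (D : ResData k) {f₁ f₂ : GL (Fin 2) k → ℂ} {A₁ A₂ : ℤ × ℤ → ℂ}
    (h₁ : IsSatAlg263 D f₁ A₁) (h₂ : IsSatAlg263 D f₂ A₂) :
    IsSatAlg263 D (fun g => f₁ g + f₂ g) (fun m => A₁ m + A₂ m) := by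
  obtain ⟨R₁, hR₁⟩ := h₁.rep
  obtain ⟨R₂, hR₂⟩ := h₂.rep
  obtain ⟨R₀, hR₀, hcov⟩ := exists_rep_merge263 R₁ R₂ hR₁.1 hR₂.1
  have hrep₁ : IsRep263 f₁ R₀ := ⟨hR₀, fun g hg => hcov g (Or.inl (hR₁.2 g hg))⟩
  have hrep₂ : IsRep263 f₂ R₀ := ⟨hR₀, fun g hg => hcov g (Or.inr (hR₂.2 g hg))⟩
  have hrep : IsRep263 (fun g => f₁ g + f₂ g) R₀ := by
    refine ⟨hR₀, fun g hg => ?_⟩
    by_cases h0 : f₁ g = 0
    · refine hrep₂.2 g ?_
      intro h0'
      apply hg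
      show f₁ g + f₂ g = 0
      rw [h0, h0', add_zero]
    · exact hrep₁.2 g h0
  have hrinv : IsRInv263 (fun g => f₁ g + f₂ g) := by
    intro u g hu
    show f₁ (g * u) + f₂ (g * u) = f₁ g + f₂ g
    rw [h₁.rinv u g hu, h₂.rinv u g hu]
  refine ⟨?_, hrinv, ⟨R₀, hrep⟩, ?_, ?_⟩
  · intro u g hu
    show f₁ (u * g) + f₂ (u * g) = f₁ g + f₂ g
    rw [h₁.linv u g hu, h₂.linv u g hu]
  · refine (h₁.fin.union h₂.fin).subset ?_
    intro m hm
    rw [Function.mem_support] at hm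
    by_contra hcon
    rw [Set.mem_union, Function.mem_support, Function.mem_support] at hcon
    push Not at hcon
    apply hm
    rw [hcon.1, hcon.2, add_zero]
  · intro Φ z₁ z₂ hz hΦ R hR y
    rw [sum_rep_eq263 hrinv hΦ.inv hR hrep y, laur_add263 h₁.fin h₂.fin, add_mul,
      ← h₁.acts Φ z₁ z₂ hz hΦ R₀ hrep₁ y, ← h₂.acts Φ z₁ z₂ hz hΦ R₀ hrep₂ y,
      ← Finset.sum_add_distrib]
    refine Finset.sum_congr rfl (fun x _ => ?_)
    ring

/-! ## The base case -/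

/-- `T_{n,m}`, the indicator function of `InS263 n m`. -/
def Tind263 (n : ℕ) (m : ℤ) (h : GL (Fin 2) k) : ℂ := if InS263 n m h then 1 else 0

/-- `A_{n,m} = (√q)^n 1{m₁, m₂ ≥ m, m₁ + m₂ = n + 2m}`. -/
def Acoef263 (D : ResData k) (n : ℕ) (m : ℤ) (x : ℤ × ℤ) : ℂ :=
  if m ≤ x.1 ∧ m ≤ x.2 ∧ x.1 + x.2 = (n : ℤ) + 2 * m then sq263 D ^ n else 0

/-- The complete homogeneous polynomial `h_n(z₁, z₂)`. -/
def hom263 (z₁ z₂ : ℂ) (n : ℕ) : ℂ :=
  ∑ p ∈ Finset.HasAntidiagonal.antidiagonal n, z₁ ^ p.1 * z₂ ^ p.2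

theorem hom_zero263 (z₁ z₂ : ℂ) : hom263 z₁ z₂ 0 = 1 := by
  simp [hom263]

theorem hom_succ263 (z₁ z₂ : ℂ) (n : ℕ) :
    hom263 z₁ z₂ (n + 1) = z₁ ^ (n + 1) + z₂ * hom263 z₁ z₂ n := by
  unfold hom263
  rw [sum_ad_succ' (fun i j => z₁ ^ i * z₂ ^ j) n, Finset.mul_sum]
  congr 1
  · simp
  · refine Finset.sum_congr rfl (fun p _ => ?_)
    ring

theorem hom_succ_succ263 (z₁ z₂ : ℂ) (n : ℕ) :
    hom263 z₁ z₂ (n + 2) = (z₁ + z₂) * hom263 z₁ z₂ (n + 1) - z₁ * z₂ * hom263 z₁ z₂ n := by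
  rw [hom_succ263 z₁ z₂ (n + 1)]
  have h := hom_succ263 z₁ z₂ n
  linear_combination (-z₁) * h

theorem alpha_eq263 (q : ℕ) (w z₁ z₂ : ℂ) (hw : w ^ 2 = (q : ℂ)) (n : ℕ) :
    alpha (w * (z₁ + z₂)) (z₁ * z₂) q n = w ^ n * hom263 z₁ z₂ n := by
  have key : ∀ n : ℕ, alpha (w * (z₁ + z₂)) (z₁ * z₂) q n = w ^ n * hom263 z₁ z₂ n ∧
      alpha (w * (z₁ + z₂)) (z₁ * z₂) q (n + 1) = w ^ (n + 1) * hom263 z₁ z₂ (n + 1) := by
    intro n
    induction n with
    | zero =>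
      refine ⟨?_, ?_⟩
      · rw [alpha_zero, hom_zero263, pow_zero, one_mul]
      · rw [alpha_one, hom_succ263, hom_zero263]
        ring
    | succ n ih =>
      refine ⟨ih.2, ?_⟩
      rw [alpha_succ_succ, ih.1, ih.2, hom_succ_succ263, ← hw]
      ring
  exact (key n).1

theorem acoef_support263 (D : ResData k) (n : ℕ) (m : ℤ) :
    Function.support (Acoef263 D n m)
      ⊆ ((Finset.HasAntidiagonal.antidiagonal n).image
          (fun p : ℕ × ℕ => ((m + (p.1 : ℤ), m + (p.2 : ℤ)) : ℤ × ℤ)) : Finset (ℤ × ℤ)) := by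
  intro x hx
  rw [Function.mem_support] at hx
  unfold Acoef263 at hx
  split_ifs at hx with hc
  · obtain ⟨h1, h2, h3⟩ := hc
    rw [Finset.mem_coe, Finset.mem_image]
    refine ⟨((x.1 - m).toNat, (x.2 - m).toNat), ?_, ?_⟩
    · rw [Finset.HasAntidiagonal.mem_antidiagonal]
      omega
    · ext
      · simp only
        omega
      · simp only
        omega
  · exact absurd rfl hx

theorem laur_acoef263 (D : ResData k) (n : ℕ) (m : ℤ) (z₁ z₂ : ℂ) (hz : z₁ * z₂ ≠ 0) :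
    laur263 (Acoef263 D n m) z₁ z₂ = (z₁ * z₂) ^ m * (sq263 D ^ n * hom263 z₁ z₂ n) := by
  have hz₁ : z₁ ≠ 0 := left_ne_zero_of_mul hz
  have hz₂ : z₂ ≠ 0 := right_ne_zero_of_mul hz
  unfold laur263
  rw [finsum_eq_sum_of_support_subset _
    ((laur_support263 (Acoef263 D n m) z₁ z₂).trans (acoef_support263 D n m))]
  rw [Finset.sum_image]
  · unfold hom263
    rw [Finset.mul_sum, Finset.mul_sum]
    refine Finset.sum_congr rfl (fun p hp => ?_)
    rw [Finset.HasAntidiagonal.mem_antidiagonal] at hp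
    have hc : m ≤ m + (p.1 : ℤ) ∧ m ≤ m + (p.2 : ℤ) ∧
        m + (p.1 : ℤ) + (m + (p.2 : ℤ)) = (n : ℤ) + 2 * m := by
      refine ⟨by omega, by omega, by omega⟩
    unfold Acoef263
    rw [if_pos hc, zpow_add₀ hz₁, zpow_add₀ hz₂, zpow_natCast, zpow_natCast, mul_zpow]
    ring
  · intro p _ p' _ hpp
    simp only [Prod.mk.injEq] at hpp
    ext
    · omega
    · omega

theorem tind_rinv263 (n : ℕ) (m : ℤ) : IsRInv263 (Tind263 (k := k) n m) := by
  intro u g hu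
  unfold Tind263
  rw [inS_mul_right_iff263 hu]

theorem tind_linv263 (n : ℕ) (m : ℤ) : IsLInv263 (Tind263 (k := k) n m) := by
  intro u g hu
  unfold Tind263
  have h : InS263 n m (u * g) ↔ InS263 n m g := by
    constructor
    · intro hS
      have := inS_mul_left263 hS (inK_inv hu)
      rwa [inv_mul_cancel_left] at this
    · intro hS
      exact inS_mul_left263 hS hu
  rw [h]

theorem tind_rep263 (D : ResData k) (n : ℕ) (m : ℤ) :
    IsRep263 (Tind263 (k := k) n m) ((Res.Jdx263 D n).image (D.fam m)) := by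
  refine ⟨?_, ?_⟩
  · intro h hh h' hh' hK
    obtain ⟨x, hx, rfl⟩ := Finset.mem_image.1 hh
    obtain ⟨x', hx', rfl⟩ := Finset.mem_image.1 hh'
    rw [Res.fam_inj263 D m hx hx' hK]
  · intro g hg
    have hS : InS263 n m g := by
      by_contra hcon
      apply hg
      unfold Tind263
      rw [if_neg hcon]
    obtain ⟨x, hx, hK⟩ := Res.fam_cover263 D m n g hS
    exact ⟨D.fam m x, Finset.mem_image.2 ⟨x, hx, rfl⟩, hK⟩

theorem isSatAlg_tind263 (D : ResData k) (n : ℕ) (m : ℤ) :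
    IsSatAlg263 D (Tind263 n m) (Acoef263 D n m) := by
  refine ⟨tind_linv263 n m, tind_rinv263 n m, ⟨_, tind_rep263 D n m⟩, ?_, ?_⟩
  · exact (Finset.finite_toSet _).subset (acoef_support263 D n m)
  · intro Φ z₁ z₂ hz hΦ R hR y
    rw [sum_rep_eq263 (tind_rinv263 n m) hΦ.inv hR (tind_rep263 D n m) y, Finset.sum_image]
    · have e : ∀ x ∈ Res.Jdx263 D n,
          Tind263 n m (D.fam m x) * Φ (y * D.fam m x) = Φ (y * D.fam m x) := by
        intro x hx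
        unfold Tind263
        rw [if_pos (Res.inS_fam263 D m hx), one_mul]
      rw [Finset.sum_congr rfl e, Res.sum_Jdx_fam263 D Φ (z₁ * z₂) hz hΦ.hS m n y,
        D.Aall_eq Φ _ _ hΦ.inv hΦ.hS hΦ.hT n y, alpha_eq263 _ _ _ _ (sq_sq263 D),
        laur_acoef263 D n m z₁ z₂ hz]
      ring
    · intro x hx x' hx' hxx
      apply Res.fam_inj263 D m hx hx'
      rw [hxx, inv_mul_cancel]
      exact inK_one

end Fermat.Agent.LT.T3.H263

end
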